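import Mathlib

/-!
# Norm certificates in the 13th cyclotomic ring

For a root `z` of `Φ₁₃ = 1 + X + ⋯ + X¹²` in any commutative ring, explicit product identities
`∏_{k=1}^{12} f(z^k) = c` for five small `f`, proved by `linear_combination` with a
computer-generated cofactor.
-/

namespace Fermat.Agent.S10.PID13

theorem prod_eq_53 {R : Type*} [CommRing R] (z : R)
    (h : 1 + z + z ^ 2 + z ^ 3 + z ^ 4 + z ^ 5 + z ^ 6 + z ^ 7 + z ^ 8 + z ^ 9 + z ^ 10 + z ^ 11 + z ^ 12 = 0) :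
    ∏ k ∈ Finset.range 12, (1 + z ^ (k + 1) + (z ^ (k + 1)) ^ 3) = 53 := by
  simp only [Finset.prod_range_succ, Finset.prod_range_zero]
  linear_combination ((-52) + (53) * z + (2) * z^3 + (-1) * z^4 + (2) * z^5 + (2) * z^6 + (1) * z^7 + (1) * z^8 + (5) * z^9 + (3) * z^10 + (2) * z^11 + (8) * z^12 + (-50) * z^13 + (61) * z^14 + (10) * z^15 + (8) * z^16 + (7) * z^17 + (20) * z^18 + (7) * z^19 + (18) * z^20 + (24) * z^21 + (17) * z^22 + (20) * z^23 + (33) * z^24 + (23) * z^25 + (-24) * z^26 + (101) * z^27 + (33) * z^28 + (38) * z^29 + (55) * z^30 + (49) * z^31 + (43) * z^32 + (84) * z^33 + (46) * z^34 + (74) * z^35 + (91) * z^36 + (71) * z^37 + (74) * z^38 + (72) * z^39 + (134) * z^40 + (101) * z^41 + (136) * z^42 + (102) * z^43 + (123) * z^44 + (173) * z^45 + (117) * z^46 + (143) * z^47 + (205) * z^48 + (135) * z^49 + (167) * z^50 + (225) * z^51 + (124) * z^52 + (228) * z^53 + (282) * z^54 + (186) * z^55 + (221) * z^56 + (298) *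 z^57 + (223) * z^58 + (228) * z^59 + (342) * z^60 + (245) * z^61 + (262) * z^62 + (376) * z^63 + (266) * z^64 + (244) * z^65 + (485) * z^66 + (276) * z^67 + (327) * z^68 + (436) * z^69 + (322) * z^70 + (335) * z^71 + (485) * z^72 + (337) * z^73 + (369) * z^74 + (505) * z^75 + (353) * z^76 + (402) * z^77 + (521) * z^78 + (393) * z^79 + (413) * z^80 + (569) * z^81 + (383) * z^82 + (417) * z^83 + (605) * z^84 + (390) * z^85 + (430) * z^86 + (616) * z^87 + (406) * z^88 + (436) * z^89 + (646) * z^90 + (414) * z^91 + (433) * z^92 + (645) * z^93 + (416) * z^94 + (439) * z^95 + (625) * z^96 + (455) * z^97 + (400) * z^98 + (678) * z^99 + (392) * z^100 + (435) * z^101 + (627) * z^102 + (428) * z^103 + (408) * z^104 + (642) * z^105 + (378) * z^106 + (425) * z^107 + (587) * z^108 + (401) * z^109 + (383) * z^110 + (595) * z^111 + (377) * z^112 + (382) * z^113 + (543) * z^114 + (386) * z^115 + (317) * z^116 + (566) * z^117 + (328) * z^118 + (341)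 * z^119 + (507) * z^120 + (324) * z^121 + (284) * z^122 + (507) * z^123 + (287) * z^124 + (287) * z^125 + (454) * z^126 + (267) * z^127 + (253) * z^128 + (425) * z^129 + (244) * z^130 + (237) * z^131 + (390) * z^132 + (236) * z^133 + (198) * z^134 + (350) * z^135 + (221) * z^136 + (174) * z^137 + (336) * z^138 + (179) * z^139 + (163) * z^140 + (288) * z^141 + (175) * z^142 + (124) * z^143 + (275) * z^144 + (131) * z^145 + (143) * z^146 + (211) * z^147 + (144) * z^148 + (79) * z^149 + (232) * z^150 + (92) * z^151 + (103) * z^152 + (162) * z^153 + (117) * z^154 + (50) * z^155 + (178) * z^156 + (56) * z^157 + (81) * z^158 + (115) * z^159 + (91) * z^160 + (25) * z^161 + (141) * z^162 + (31) * z^163 + (61) * z^164 + (74) * z^165 + (71) * z^166 + (5) * z^167 + (109) * z^168 + (14) * z^169 + (42) * z^170 + (49) * z^171 + (54) * z^172 + (-8) * z^173 + (83) * z^174 + (6) * z^175 + (30) * z^176 + (29) * z^177 + (36) * z^178 + (-10) * z^179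 + (56) * z^180 + (-2) * z^181 + (22) * z^182 + (14) * z^183 + (28) * z^184 + (-10) * z^185 + (36) * z^186 + (-2) * z^187 + (15) * z^188 + (8) * z^189 + (18) * z^190 + (-13) * z^191 + (27) * z^192 + (-5) * z^193 + (8) * z^194 + (4) * z^195 + (11) * z^196 + (-8) * z^197 + (17) * z^198 + (-4) * z^199 + (4) * z^200 + (2) * z^201 + (7) * z^202 + (-5) * z^203 + (8) * z^204 + (-3) * z^205 + (3) * z^206 + (4) * z^208 + (-3) * z^209 + (5) * z^210 + (-1) * z^211 + (2) * z^214 + (-2) * z^215 + (3) * z^216 + (-1) * z^217 + (1) * z^220 + (-1) * z^221 + (1) * z^222) * h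

theorem prod_eq_27 {R : Type*} [CommRing R] (z : R)
    (h : 1 + z + z ^ 2 + z ^ 3 + z ^ 4 + z ^ 5 + z ^ 6 + z ^ 7 + z ^ 8 + z ^ 9 + z ^ 10 + z ^ 11 + z ^ 12 = 0) :
    ∏ k ∈ Finset.range 12, (1 + z ^ (k + 1) - (z ^ (k + 1)) ^ 3) = 27 := by
  simp only [Finset.prod_range_succ, Finset.prod_range_zero]
  linear_combination ((-26) + (27) * z + (1) * z^4 + (1) * z^7 + (1) * z^8 + (1) * z^9 + (-1) * z^10 + (2) * z^11 + (2) * z^12 + (-26) * z^13 + (27) * z^14 + (2) * z^16 + (1) * z^17 + (1) * z^19 + (2) * z^20 + (-1) * z^22 + (1) * z^24 + (1) * z^25 + (-30) * z^26 + (25) * z^27 + (1) * z^28 + (-2) * z^29 + (-3) * z^30 + (-3) * z^31 + (-1) * z^32 + (-4) * z^33 + (-6) * z^34 + (-2) * z^35 + (-1) * z^36 + (-5) * z^37 + (-6) * z^38 + (-32) * z^39 + (26) * z^40 + (-5) * z^41 + (-6) * z^42 + (-4) * z^43 + (-1) * z^44 + (-1) * z^45 + (-7) * z^46 + (-1) * z^47 + (5) * z^48 + (-1) * z^49 + (-5) * z^50 + (3) * z^51 + (-24) * z^52 + (32) * z^53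 + (6) * z^55 + (11) * z^56 + (6) * z^57 + (3) * z^58 + (6) * z^59 + (12) * z^60 + (11) * z^61 + (4) * z^62 + (6) * z^63 + (16) * z^64 + (-22) * z^65 + (33) * z^66 + (10) * z^67 + (11) * z^68 + (2) * z^69 + (2) * z^70 + (3) * z^71 + (7) * z^72 + (1) * z^73 + (1) * z^74 + (-7) * z^75 + (1) * z^76 + (-45) * z^78 + (29) * z^79 + (-9) * z^80 + (-7) * z^81 + (-17) * z^82 + (-7) * z^83 + (-3) * z^84 + (-16) * z^85 + (-18) * z^86 + (-8) * z^87 + (-10) * z^88 + (-10) * z^89 + (-10) * z^90 + (-46) * z^91 + (29) * z^92 + (-3) * z^93 + (-14) * z^94 + (-5) * z^95 + (7) * z^96 + (-5) * z^97 + (-4) * z^98 + (2) * z^99 + (10) * z^100 + (1) * z^101 + (9) * z^102 + (6) * z^103 + (-24) * z^104 + (42) * z^105 + (8) * z^106 + (9) * z^107 + (11) * z^108 + (15) * z^109 + (13) * z^110 + (7) * z^111 + (11) * z^112 + (10) * z^113 + (-1) * z^114 + (16) * z^115 + (3) * z^116 + (-36) * z^117 + (40) * z^118 + (5) * z^119 + (-1) * z^120 + (10) * z^121 + (-8)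 * z^122 + (-5) * z^123 + (-9) * z^124 + (-1) * z^125 + (-10) * z^126 + (-7) * z^127 + (-3) * z^128 + (-15) * z^129 + (-32) * z^130 + (25) * z^131 + (-4) * z^132 + (-8) * z^133 + (-8) * z^134 + (-10) * z^135 + (-9) * z^136 + (-2) * z^137 + (6) * z^138 + (-13) * z^139 + (1) * z^140 + (2) * z^141 + (-1) * z^142 + (-32) * z^143 + (41) * z^144 + (-11) * z^145 + (9) * z^146 + (11) * z^147 + (-10) * z^148 + (9) * z^149 + (8) * z^150 + (8) * z^151 + (-11) * z^152 + (12) * z^153 + (7) * z^154 + (2) * z^155 + (-28) * z^156 + (32) * z^157 + (3) * z^158 + (5) * z^159 + (-3) * z^160 + (-1) * z^161 + (-3) * z^162 + (7) * z^163 + (-3) * z^164 + (-6) * z^165 + (5) * z^166 + (-1) * z^167 + (-9) * z^168 + (-16) * z^169 + (18) * z^170 + (-11) * z^171 + (10) * z^172 + (-8) * z^173 + (1) * z^174 + (-6) * z^175 + (6) * z^176 + (-7) * z^177 + (2) * z^178 + (-4) * z^181 + (-8) * z^182 + (12) * z^183 + (-4) * z^184 + (6) * z^185 + (-2) * z^186 + (2) * z^187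 + (-1) * z^188 + (8) * z^189 + (-6) * z^190 + (3) * z^191 + (1) * z^192 + (1) * z^193 + (-6) * z^194 + (5) * z^196 + (-2) * z^197 + (1) * z^198 + (-2) * z^199 + (2) * z^200 + (1) * z^202 + (-3) * z^203 + (2) * z^204 + (-1) * z^205 + (1) * z^206 + (-4) * z^207 + (1) * z^209 + (-1) * z^210 + (1) * z^211 + (2) * z^215 + (-1) * z^216 + (1) * z^217 + (-1) * z^220 + (-1) * z^221 + (1) * z^222) * h

theorem prod_eq_131 {R : Type*} [CommRing R] (z : R)
    (h : 1 + z + z ^ 2 + z ^ 3 + z ^ 4 + z ^ 5 + z ^ 6 + z ^ 7 + z ^ 8 + z ^ 9 + z ^ 10 + z ^ 11 + z ^ 12 = 0) :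
    ∏ k ∈ Finset.range 12, (1 - z ^ (k + 1) - (z ^ (k + 1)) ^ 3) = 131 := by
  simp only [Finset.prod_range_succ, Finset.prod_range_zero]
  linear_combination ((-130) + (129) * z + (1) * z^4 + (2) * z^5 + (-2) * z^6 + (3) * z^7 + (-3) * z^8 + (1) * z^9 + (-1) * z^10 + (-4) * z^12 + (-126) * z^13 + (127) * z^14 + (-2) * z^15 + (1) * z^17 + (8) * z^18 + (-5) * z^19 + (8) * z^20 + (-2) * z^21 + (7) * z^22 + (-6) * z^23 + (5) * z^24 + (-17) * z^25 + (-114) * z^26 + (117) * z^27 + (-5) * z^28 + (-10) * z^29 + (3) * z^30 + (5) * z^31 + (-3) * z^32 + (10) * z^33 + (-4) * z^34 + (8) * z^35 + (9) * z^36 + (11) * z^37 + (-20) * z^38 + (-98) * z^39 + (100) * z^40 + (13) * z^41 + (-32) * z^42 + (20) * z^43 + (-9) * z^44 + (-5) * z^45 + (1) * z^46 + (1) * z^47 + (-13) * z^48 + (25) * z^49 + (-5) * z^50 + (-1) * z^51 + (-88) * z^52 + (88) * z^53 + (-6) * z^54 + (-12) * z^55 + (25) * z^56 + (2) * z^57 + (-13) * z^58 + (8) * z^59 + (-6) * z^60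 + (-7) * z^61 + (20) * z^62 + (-26) * z^63 + (30) * z^64 + (-72) * z^65 + (67) * z^66 + (-22) * z^67 + (-13) * z^68 + (16) * z^69 + (6) * z^70 + (-21) * z^71 + (25) * z^72 + (-17) * z^73 + (7) * z^74 + (37) * z^75 + (-61) * z^76 + (-6) * z^77 + (39) * z^78 + (-7) * z^79 + (31) * z^80 + (-61) * z^81 + (55) * z^82 + (-17) * z^83 + (-1) * z^84 + (-14) * z^85 + (2) * z^86 + (-32) * z^87 + (72) * z^88 + (-58) * z^89 + (20) * z^90 + (6) * z^91 + (-9) * z^92 + (13) * z^93 + (-30) * z^94 + (47) * z^95 + (-23) * z^96 + (7) * z^97 + (-4) * z^98 + (-22) * z^99 + (10) * z^100 + (23) * z^101 + (-27) * z^102 + (24) * z^103 + (-28) * z^106 + (11) * z^107 + (-9) * z^108 + (31) * z^109 + (-21) * z^110 + (1) * z^111 + (-27) * z^112 + (54) * z^113 + (-35) * z^114 + (32) * z^115 + (-51) * z^116 + (64) * z^117 + (-54) * z^118 + (31) * z^119 + (-21) * z^120 + (8) * z^121 + (-20) * z^122 + (51) * z^123 + (-57) * z^124 + (43) * z^125 + (-34) * z^126 +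 (25) * z^127 + (-17) * z^128 + (23) * z^129 + (-8) * z^130 + (-13) * z^131 + (-12) * z^132 + (38) * z^133 + (-42) * z^134 + (42) * z^135 + (-25) * z^136 + (2) * z^137 + (4) * z^138 + (7) * z^139 + (-5) * z^140 + (-10) * z^141 + (11) * z^142 + (10) * z^143 + (-19) * z^144 + (3) * z^145 + (7) * z^146 + (-13) * z^147 + (20) * z^148 + (-15) * z^149 + (12) * z^150 + (-22) * z^151 + (31) * z^152 + (-26) * z^153 + (23) * z^154 + (-12) * z^155 + (10) * z^156 + (-26) * z^157 + (31) * z^158 + (-33) * z^159 + (37) * z^160 + (-41) * z^161 + (41) * z^162 + (-35) * z^163 + (33) * z^164 + (-28) * z^165 + (19) * z^166 + (-25) * z^167 + (41) * z^168 + (-38) * z^169 + (34) * z^170 + (-41) * z^171 + (34) * z^172 + (-30) * z^173 + (33) * z^174 + (-30) * z^175 + (24) * z^176 + (-25) * z^177 + (34) * z^178 + (-38) * z^179 + (34) * z^180 + (-30) * z^181 + (26) * z^182 + (-24) * z^183 + (22) * z^184 + (-22) * z^185 + (20) * z^186 + (-18) * z^187 + (21)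 * z^188 + (-22) * z^189 + (20) * z^190 + (-19) * z^191 + (17) * z^192 + (-15) * z^193 + (16) * z^194 + (-16) * z^195 + (11) * z^196 + (-10) * z^197 + (11) * z^198 + (-10) * z^199 + (12) * z^200 + (-12) * z^201 + (9) * z^202 + (-7) * z^203 + (6) * z^204 + (-5) * z^205 + (3) * z^206 + (-2) * z^207 + (4) * z^208 + (-5) * z^209 + (5) * z^210 + (-5) * z^211 + (4) * z^212 + (-2) * z^213 + (2) * z^214 + (-2) * z^215 + (1) * z^216 + (-1) * z^217 + (2) * z^218 + (-2) * z^219 + (1) * z^220 + (-1) * z^221 + (1) * z^222) * h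

theorem prod_eq_79 {R : Type*} [CommRing R] (z : R)
    (h : 1 + z + z ^ 2 + z ^ 3 + z ^ 4 + z ^ 5 + z ^ 6 + z ^ 7 + z ^ 8 + z ^ 9 + z ^ 10 + z ^ 11 + z ^ 12 = 0) :
    ∏ k ∈ Finset.range 12, (1 + z ^ (k + 1) - (z ^ (k + 1)) ^ 4) = 79 := by
  simp only [Finset.prod_range_succ, Finset.prod_range_zero]
  linear_combination ((-78) + (79) * z + (1) * z^3 + (-1) * z^4 + (2) * z^5 + (1) * z^7 + (1) * z^9 + (3) * z^10 + (2) * z^12 + (-79) * z^13 + (82) * z^14 + (2) * z^15 + (2) * z^16 + (-1) * z^17 + (4) * z^18 + (-1) * z^19 + (6) * z^20 + (2) * z^22 + (1) * z^23 + (-2) * z^24 + (5) * z^25 + (-81) * z^26 + (82) * z^27 + (-2) * z^29 + (-3) * z^30 + (2) * z^31 + (-6) * z^32 + (5) * z^33 + (-14) * z^34 + (6) * z^35 + (-7) * z^36 + (-3) * z^37 + (-5) * z^38 + (-88) * z^39 + (79) * z^40 + (-6) * z^41 + (-12) * z^42 + (-8) * z^43 + (-4) * z^44 + (-1) * z^45 + (-3) * z^46 + (-16) * z^47 + (-16) * z^49 + (5) * z^50 + (-15) * z^51 + (-77) * z^52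 + (67) * z^53 + (2) * z^54 + (3) * z^55 + (-4) * z^56 + (-4) * z^57 + (1) * z^58 + (-6) * z^59 + (3) * z^60 + (2) * z^61 + (1) * z^62 + (8) * z^63 + (-7) * z^64 + (-53) * z^65 + (88) * z^66 + (7) * z^67 + (5) * z^68 + (-14) * z^69 + (31) * z^70 + (10) * z^71 + (7) * z^72 + (10) * z^73 + (6) * z^74 + (25) * z^75 + (8) * z^76 + (14) * z^77 + (-46) * z^78 + (64) * z^79 + (20) * z^80 + (5) * z^81 + (3) * z^82 + (28) * z^83 + (-16) * z^84 + (28) * z^85 + (-11) * z^86 + (8) * z^87 + (18) * z^88 + (-19) * z^89 + (17) * z^90 + (-49) * z^91 + (38) * z^92 + (19) * z^93 + (-60) * z^94 + (31) * z^95 + (-6) * z^96 + (-8) * z^97 + (-20) * z^98 + (-32) * z^99 + (16) * z^100 + (4) * z^101 + (-32) * z^102 + (-20) * z^103 + (-63) * z^104 + (47) * z^105 + (-14) * z^106 + (-42) * z^107 + (7) * z^108 + (-22) * z^109 + (-3) * z^110 + (-23) * z^111 + (-22) * z^112 + (6) * z^113 + (-9) * z^114 + (-9) * z^115 + (-11) * z^116 + (-46) * z^117 + (40) * z^118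 + (-21) * z^119 + (3) * z^120 + (-6) * z^121 + (25) * z^122 + (-11) * z^123 + (-11) * z^124 + (-6) * z^125 + (29) * z^126 + (20) * z^127 + (5) * z^128 + (-26) * z^129 + (18) * z^130 + (25) * z^131 + (11) * z^132 + (-2) * z^133 + (11) * z^134 + (40) * z^135 + (13) * z^136 + (-11) * z^137 + (17) * z^138 + (12) * z^139 + (39) * z^140 + (-15) * z^141 + (17) * z^142 + (-10) * z^143 + (9) * z^144 + (26) * z^145 + (-2) * z^146 + (10) * z^147 + (10) * z^148 + (5) * z^149 + (-8) * z^150 + (-3) * z^151 + (15) * z^152 + (19) * z^153 + (-37) * z^154 + (16) * z^155 + (-30) * z^156 + (15) * z^157 + (-14) * z^158 + (-10) * z^160 + (10) * z^161 + (-2) * z^162 + (-30) * z^163 + (-12) * z^164 + (21) * z^165 + (-22) * z^166 + (-13) * z^167 + (-5) * z^168 + (-16) * z^169 + (-13) * z^170 + (3) * z^171 + (-9) * z^172 + (5) * z^173 + (-5) * z^174 + (6) * z^175 + (-31) * z^176 + (6) * z^177 + (8) * z^178 + (-4) * z^179 + (-9) * z^180 + (10) * z^181 + (-15)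 * z^182 + (-3) * z^183 + (9) * z^184 + (-4) * z^185 + (3) * z^186 + (20) * z^187 + (4) * z^188 + (-23) * z^189 + (14) * z^190 + (16) * z^191 + (-2) * z^192 + (-8) * z^193 + (24) * z^194 + (-22) * z^195 + (18) * z^196 + (-3) * z^197 + (6) * z^198 + (5) * z^199 + (18) * z^200 + (-8) * z^201 + (-6) * z^202 + (3) * z^203 + (22) * z^204 + (-15) * z^205 + (2) * z^206 + (11) * z^207 + (-20) * z^208 + (11) * z^209 + (5) * z^210 + (-10) * z^211 + (5) * z^212 + (8) * z^213 + (1) * z^214 + (-21) * z^215 + (10) * z^216 + (4) * z^217 + (-4) * z^218 + (-1) * z^219 + (1) * z^220 + (-14) * z^221 + (3) * z^222 + (-6) * z^224 + (4) * z^225 + (6) * z^226 + (-6) * z^227 + (-10) * z^228 + (9) * z^229 + (-4) * z^230 + (1) * z^231 + (-5) * z^232 + (9) * z^233 + (-13) * z^234 + (5) * z^235 + (-1) * z^236 + (-3) * z^237 + (3) * z^238 + (10) * z^239 + (-11) * z^240 + (1) * z^241 + (1) * z^242 + (3) * z^243 + (2) * z^244 + (-3) * z^245 + (2) * z^246 + (-6)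 * z^247 + (6) * z^248 + (2) * z^249 + (-5) * z^250 + (6) * z^251 + (2) * z^252 + (-4) * z^253 + (1) * z^254 + (1) * z^255 + (2) * z^256 + (-1) * z^257 + (-1) * z^258 + (2) * z^259 + (-5) * z^260 + (3) * z^261 + (-2) * z^263 + (5) * z^264 + (-1) * z^265 + (-2) * z^266 + (1) * z^268 + (-2) * z^271 + (1) * z^272 + (-3) * z^273 + (3) * z^274 + (-2) * z^275 + (1) * z^277 + (2) * z^278 + (-3) * z^279 + (1) * z^280 + (-1) * z^281 + (1) * z^282 + (-2) * z^284 + (2) * z^285 + (-2) * z^286 + (2) * z^287 + (-1) * z^288 + (1) * z^290 + (1) * z^291 + (-1) * z^292 + (1) * z^293 + (-1) * z^294 + (1) * z^295 + (-1) * z^297 + (-1) * z^299 + (1) * z^300) * h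

theorem prod_eq_157 {R : Type*} [CommRing R] (z : R)
    (h : 1 + z + z ^ 2 + z ^ 3 + z ^ 4 + z ^ 5 + z ^ 6 + z ^ 7 + z ^ 8 + z ^ 9 + z ^ 10 + z ^ 11 + z ^ 12 = 0) :
    ∏ k ∈ Finset.range 12, (1 - z ^ (k + 1) + (z ^ (k + 1)) ^ 2 + (z ^ (k + 1)) ^ 4) = 157 := by
  simp only [Finset.prod_range_succ, Finset.prod_range_zero]
  linear_combination ((-156) + (155) * z + (1) * z^2 + (1) * z^4 + (-2) * z^5 + (1) * z^6 + (-2) * z^7 + (4) * z^8 + (-3) * z^9 + (3) * z^10 + (-4) * z^11 + (6) * z^12 + (-163) * z^13 + (159) * z^14 + (-2) * z^15 + (5) * z^16 + (-6) * z^17 + (6) * z^18 + (-7) * z^19 + (10) * z^20 + (-12) * z^21 + (10) * z^22 + (-9) * z^23 + (15) * z^24 + (-15) * z^25 + (-148) * z^26 + (141) * z^27 + (24) * z^28 + (-25) * z^29 + (24) * z^30 + (-27) * z^31 + (33) * z^32 + (-25) * z^33 + (20) * z^34 + (-25) * z^35 + (37) * z^36 + (-39) * z^37 + (34) * z^38 + (-199) * z^39 + (204) * z^40 + (-54) * z^41 + (45) * z^42 + (-47) * z^43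 + (62) * z^44 + (-63) * z^45 + (62) * z^46 + (-71) * z^47 + (104) * z^48 + (-93) * z^49 + (82) * z^50 + (-99) * z^51 + (-40) * z^52 + (42) * z^53 + (95) * z^54 + (-118) * z^55 + (137) * z^56 + (-146) * z^57 + (132) * z^58 + (-150) * z^59 + (178) * z^60 + (-169) * z^61 + (165) * z^62 + (-158) * z^63 + (196) * z^64 + (-354) * z^65 + (345) * z^66 + (-219) * z^67 + (268) * z^68 + (-256) * z^69 + (237) * z^70 + (-293) * z^71 + (317) * z^72 + (-316) * z^73 + (281) * z^74 + (-323) * z^75 + (384) * z^76 + (-371) * z^77 + (200) * z^78 + (-243) * z^79 + (462) * z^80 + (-444) * z^81 + (432) * z^82 + (-435) * z^83 + (497) * z^84 + (-484) * z^85 + (450) * z^86 + (-534) * z^87 + (619) * z^88 + (-611) * z^89 + (578) * z^90 + (-819) * z^91 + (856) * z^92 + (-653) * z^93 + (627) * z^94 + (-713) * z^95 + (807) * z^96 + (-794) * z^97 + (798) * z^98 + (-850) * z^99 + (908) * z^100 + (-870) * z^101 + (837) * z^102 + (-864) * z^103 + (786) * z^104 +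 (-834) * z^105 + (974) * z^106 + (-1033) * z^107 + (1142) * z^108 + (-1115) * z^109 + (1067) * z^110 + (-1174) * z^111 + (1252) * z^112 + (-1189) * z^113 + (1167) * z^114 + (-1295) * z^115 + (1422) * z^116 + (-1542) * z^117 + (1475) * z^118 + (-1445) * z^119 + (1570) * z^120 + (-1492) * z^121 + (1433) * z^122 + (-1488) * z^123 + (1593) * z^124 + (-1587) * z^125 + (1546) * z^126 + (-1650) * z^127 + (1788) * z^128 + (-1708) * z^129 + (1530) * z^130 + (-1690) * z^131 + (1871) * z^132 + (-1780) * z^133 + (1787) * z^134 + (-1950) * z^135 + (2046) * z^136 + (-1976) * z^137 + (1975) * z^138 + (-2096) * z^139 + (2142) * z^140 + (-2096) * z^141 + (2082) * z^142 + (-2170) * z^143 + (2227) * z^144 + (-2125) * z^145 + (2092) * z^146 + (-2168) * z^147 + (2271) * z^148 + (-2248) * z^149 + (2182) * z^150 + (-2239) * z^151 + (2297) * z^152 + (-2201) * z^153 + (2166) * z^154 + (-2340) * z^155 + (2409) * z^156 + (-2344) * z^157 + (2421) * z^158 +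 (-2516) * z^159 + (2518) * z^160 + (-2406) * z^161 + (2328) * z^162 + (-2360) * z^163 + (2447) * z^164 + (-2462) * z^165 + (2416) * z^166 + (-2443) * z^167 + (2526) * z^168 + (-2473) * z^169 + (2385) * z^170 + (-2362) * z^171 + (2377) * z^172 + (-2318) * z^173 + (2294) * z^174 + (-2404) * z^175 + (2462) * z^176 + (-2366) * z^177 + (2326) * z^178 + (-2378) * z^179 + (2394) * z^180 + (-2311) * z^181 + (2254) * z^182 + (-2236) * z^183 + (2280) * z^184 + (-2266) * z^185 + (2210) * z^186 + (-2205) * z^187 + (2201) * z^188 + (-2128) * z^189 + (2080) * z^190 + (-2078) * z^191 + (2084) * z^192 + (-1981) * z^193 + (1885) * z^194 + (-1907) * z^195 + (1953) * z^196 + (-1898) * z^197 + (1858) * z^198 + (-1853) * z^199 + (1821) * z^200 + (-1756) * z^201 + (1725) * z^202 + (-1665) * z^203 + (1626) * z^204 + (-1603) * z^205 + (1576) * z^206 + (-1567) * z^207 + (1578) * z^208 + (-1487) * z^209 + (1378) * z^210 + (-1349) * z^211 + (1361) * z^212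 + (-1296) * z^213 + (1221) * z^214 + (-1199) * z^215 + (1210) * z^216 + (-1168) * z^217 + (1126) * z^218 + (-1107) * z^219 + (1069) * z^220 + (-986) * z^221 + (957) * z^222 + (-947) * z^223 + (933) * z^224 + (-881) * z^225 + (832) * z^226 + (-810) * z^227 + (806) * z^228 + (-766) * z^229 + (713) * z^230 + (-675) * z^231 + (660) * z^232 + (-616) * z^233 + (583) * z^234 + (-562) * z^235 + (544) * z^236 + (-501) * z^237 + (486) * z^238 + (-488) * z^239 + (470) * z^240 + (-415) * z^241 + (380) * z^242 + (-365) * z^243 + (354) * z^244 + (-338) * z^245 + (327) * z^246 + (-301) * z^247 + (296) * z^248 + (-279) * z^249 + (252) * z^250 + (-234) * z^251 + (223) * z^252 + (-196) * z^253 + (181) * z^254 + (-178) * z^255 + (177) * z^256 + (-158) * z^257 + (142) * z^258 + (-133) * z^259 + (131) * z^260 + (-114) * z^261 + (100) * z^262 + (-90) * z^263 + (87) * z^264 + (-83) * z^265 + (80) * z^266 + (-73) * z^267 + (70) * z^268 + (-60) * z^269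 + (52) * z^270 + (-49) * z^271 + (50) * z^272 + (-40) * z^273 + (31) * z^274 + (-30) * z^275 + (32) * z^276 + (-26) * z^277 + (22) * z^278 + (-21) * z^279 + (22) * z^280 + (-17) * z^281 + (14) * z^282 + (-12) * z^283 + (9) * z^284 + (-7) * z^285 + (9) * z^286 + (-9) * z^287 + (9) * z^288 + (-7) * z^289 + (5) * z^290 + (-4) * z^291 + (4) * z^292 + (-2) * z^293 + (1) * z^294 + (-2) * z^295 + (3) * z^296 + (-2) * z^297 + (1) * z^298 + (-1) * z^299 + (1) * z^300) * h

end Fermat.Agent.S10.PID13
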