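import Mathlib

/-!
# Norms of explicit elements of prime cyclotomic fields

Generic helper lemmas (any prime `p`): the norm of `f(ζ)`, `f ∈ ℤ[X]`, `ζ` a primitive `p`-th root
of unity in the `p`-th cyclotomic field `K`, is `∏_{k=1}^{p-1} f(ζ^k)`; consequently the absolute
norm of the principal ideal `(f(ζ))` of `𝓞 K` can be read off from an explicit product identity.
-/

open NumberField Ideal Polynomial

namespace Fermat.Agent.S10.PID13

/-- Reindexing a product over the units of `ZMod p` (p prime) as a product over `1..p-1`. -/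
theorem prod_units_zmod {p : ℕ} [hp : Fact p.Prime] {M : Type*} [CommMonoid M] (F : ℕ → M) :
    ∏ u : (ZMod p)ˣ, F (u : ZMod p).val = ∏ k ∈ Finset.Icc 1 (p - 1), F k := by
  have hp1 : 1 < p := hp.out.one_lt
  refine Finset.prod_bij' (fun u _ => (u : ZMod p).val)
    (fun k hk => ZMod.unitOfCoprime k ?_) ?_ ?_ ?_ ?_ ?_
  · rw [Finset.mem_Icc] at hk
    apply Nat.Coprime.symm
    rw [Nat.Prime.coprime_iff_not_dvd hp.out]
    intro hdvd
    have := Nat.le_of_dvd (by omega) hdvd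
    omega
  · intro u _
    rw [Finset.mem_Icc]
    have h1 : (u : ZMod p).val < p := ZMod.val_lt _
    have h2 : (u : ZMod p).val ≠ 0 := by
      rw [Ne, ZMod.val_eq_zero]
      exact u.ne_zero
    omega
  · intro k _
    exact Finset.mem_univ _
  · intro u _
    ext
    simp
  · intro k hk
    rw [Finset.mem_Icc] at hk
    simp only [ZMod.coe_unitOfCoprime]
    rw [ZMod.val_natCast, Nat.mod_eq_of_lt (by omega)]
  · intro u _
    rfl

variable {p : ℕ} [hp : Fact p.Prime] (K : Type*) [Field K] [NumberField K]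
  [hK : IsCyclotomicExtension {p} ℚ K]

/-- The norm of `f(ζ)` is `∏_{k=1}^{p-1} f(ζ^k)`. -/
theorem norm_aeval_eq_prod {ζ : K} (hζ : IsPrimitiveRoot ζ p) (f : ℤ[X]) :
    algebraMap ℚ K (Algebra.norm ℚ (aeval ζ f)) = ∏ k ∈ Finset.Icc 1 (p - 1), aeval (ζ ^ k) f := by
  have : NeZero p := ⟨hp.out.ne_zero⟩
  have : IsGalois ℚ K := IsCyclotomicExtension.isGalois {p} ℚ K
  rw [Algebra.norm_eq_prod_automorphisms]
  have h1 : ∀ σ : Gal(K/ℚ), σ (aeval ζ f) =
      aeval (ζ ^ ((IsCyclotomicExtension.Rat.galEquivZMod p K σ : (ZMod p)ˣ) : ZMod p).val) f := by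
    intro σ
    rw [← IsCyclotomicExtension.Rat.galEquivZMod_apply_of_pow_eq p K σ hζ.pow_eq_one]
    rw [aeval_def, aeval_def]
    rw [show σ (eval₂ (algebraMap ℤ K) ζ f) = (σ : K →+* K) (eval₂ (algebraMap ℤ K) ζ f) from rfl,
      hom_eval₂]
    congr 1
    exact Subsingleton.elim _ _
  simp_rw [h1]
  rw [← prod_units_zmod (p := p) (fun k => aeval (ζ ^ k) f)]
  exact Fintype.prod_equiv (IsCyclotomicExtension.Rat.galEquivZMod p K).toEquiv _ _ (fun σ => rfl)

/-- If `∏_{k=1}^{p-1} f(ζ^k) = c` then the ideal generated by `f(ζ)` in `𝓞 K` has absolute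
norm `|c|`. -/
theorem absNorm_span_aeval {ζ : K} (hζ : IsPrimitiveRoot ζ p) (f : ℤ[X]) (c : ℤ)
    (h : ∏ k ∈ Finset.Icc 1 (p - 1), aeval (ζ ^ k) f = (c : K)) :
    absNorm (span {aeval hζ.toInteger f}) = c.natAbs := by
  rw [Ideal.absNorm_span_singleton]
  congr 1
  have h1 : ((aeval hζ.toInteger f : 𝓞 K) : K) = aeval ζ f :=
    (Polynomial.aeval_algebraMap_apply K hζ.toInteger f).symm
  have h2 : ((Algebra.norm ℤ (aeval hζ.toInteger f) : ℤ) : ℚ) = (c : ℚ) := by
    rw [Algebra.coe_norm_int, h1]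
    apply (algebraMap ℚ K).injective
    rw [norm_aeval_eq_prod K hζ f, h]
    simp
  exact_mod_cast h2

/-- A principal ideal whose absolute norm is a rational prime `ℓ` is a principal prime over `ℓ`. -/
theorem exists_principal_of_absNorm_prime {ℓ : ℕ} (hℓ : ℓ.Prime) (x : 𝓞 K)
    (hx : absNorm (span {x}) = ℓ) :
    ∃ P ∈ primesOver (span {(ℓ : ℤ)}) (𝓞 K), Submodule.IsPrincipal P := by
  have hprime : (span {x}).IsPrime := isPrime_of_irreducible_absNorm (hx ▸ hℓ)
  refine ⟨span {x}, ⟨hprime, ?_⟩, ⟨x, rfl⟩⟩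
  rw [liesOver_iff]
  have : Fact ℓ.Prime := ⟨hℓ⟩
  refine IsMaximal.eq_of_le (Int.ideal_span_isMaximal_of_prime ℓ) IsPrime.ne_top' ?_
  rw [span_singleton_le_iff_mem, mem_comap, algebraMap_int_eq, map_natCast]
  rw [← hx]
  exact absNorm_mem _

/-- If `I ≤ J` are ideals of the same nonzero absolute norm, they are equal. -/
theorem eq_of_le_of_absNorm_eq {I J : Ideal (𝓞 K)} (hle : I ≤ J) (h : absNorm I = absNorm J)
    (h0 : absNorm I ≠ 0) : I = J := by
  obtain ⟨L, rfl⟩ := Ideal.dvd_iff_le.mpr hle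
  rw [map_mul] at h
  have hJ0 : absNorm J ≠ 0 := by
    intro hJ
    rw [map_mul, hJ, zero_mul] at h0
    exact h0 rfl
  have hL : absNorm L = 1 := by
    have : absNorm J * absNorm L = absNorm J * 1 := by rw [h, mul_one]
    exact Nat.eq_of_mul_eq_mul_left (Nat.pos_of_ne_zero hJ0) this
  rw [absNorm_eq_one_iff.mp hL, Ideal.mul_top]

end Fermat.Agent.S10.PID13
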